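import Fermat.Agent.S43.Loc.Conj
import Fermat.Agent.PT.Bridge.GalLevels

/-!
# S43 / Loc / Module : the tame generator acting on sets and modules

Module-shaped versions of `IsTameGen.exists_zpow`, `.conj`, `.exists_pow_mul_zpow` (`f := MulAction.toPermHom`), and the criterion
"unipotent + `p^k`-torsion ⟹ `p`-power order".
-/

set_option autoImplicit false

namespace Fermat.Agent.S43.Loc

open Fermat.Agent.PT
open Fermat.Agent.PT.Local (Plc IsFrob)

section pow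

variable {Γ V : Type*} [Group Γ]

theorem pow_smul_of_fixed [MulAction Γ V] {τ : Γ} {z : V} (h : τ • z = z) (n : ℕ) : τ ^ n • z = z := by
  induction n with
  | zero => simp
  | succ n ih => rw [pow_succ, mul_smul, h, ih]

theorem zpow_smul_of_fixed [MulAction Γ V] {τ : Γ} {z : V} (h : τ • z = z) (n : ℤ) : τ ^ n • z = z :=
  (MulAction.stabilizer Γ z).zpow_mem (MulAction.mem_stabilizer_iff.2 h) n

variable [AddCommGroup V] [DistribMulAction Γ V]

/-- unipotent + `q^k`-torsion ⟹ order dividing a power of `q`, pointwise. -/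
theorem pow_smul_eq_of_unip (q k : ℕ) (τ : Γ) (W : AddSubgroup V) (hW : ∀ x ∈ W, τ • x ∈ W)
    (hk : ∀ x ∈ W, q ^ k • x = 0) :
    ∀ (M : ℕ) (x : V), x ∈ W → (fun y => τ • y - y)^[M] x = 0 → τ ^ (q ^ (k * M)) • x = x := by
  intro M
  induction M with
  | zero =>
    intro x _ h
    have h0 : x = 0 := h
    rw [h0, smul_zero]
  | succ M ih =>
    intro x hx h
    rw [Function.iterate_succ_apply] at h
    have hy : τ • x - x ∈ W := W.sub_mem (hW x hx) hx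
    have h1 := ih _ hy h
    set σ := τ ^ (q ^ (k * M)) with hσ
    have hσW : ∀ n : ℕ, ∀ x ∈ W, τ ^ n • x ∈ W := by
      intro n
      induction n with
      | zero => intro x hx; simpa using hx
      | succ n ihn => intro x hx; rw [pow_succ, mul_smul]; exact ihn _ (hW x hx)
    have hz : σ • x - x ∈ W := W.sub_mem (hσW _ x hx) hx
    have hc : τ • σ • x = σ • τ • x := by
      rw [← mul_smul, ← mul_smul, hσ, ← pow_succ, ← pow_succ']
    have h2 : σ • τ • x - σ • x = τ • x - x := by rw [← smul_sub]; exact h1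
    have hτz : τ • (σ • x - x) = σ • x - x := by
      rw [smul_sub, hc]
      calc σ • τ • x - τ • x = (σ • τ • x - σ • x) + (σ • x - τ • x) := by abel
        _ = (τ • x - x) + (σ • x - τ • x) := by rw [h2]
        _ = σ • x - x := by abel
    have hσz : σ • (σ • x - x) = σ • x - x := pow_smul_of_fixed hτz _
    have hj : ∀ j : ℕ, σ ^ j • x = x + j • (σ • x - x) := by
      intro j
      induction j with
      | zero => simp
      | succ j ih2 =>
        have e1 : σ • x = x + (σ • x - x) := by abel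
        rw [pow_succ, mul_smul]
        conv_lhs => rw [e1]
        rw [smul_add, ih2, pow_smul_of_fixed hσz, succ_nsmul]
        abel
    have h3 := hj (q ^ k)
    rw [hk _ hz, add_zero] at h3
    have e : τ ^ (q ^ (k * (M + 1))) = σ ^ (q ^ k) := by
      rw [hσ, ← pow_mul, ← pow_add]
      congr 2
    rw [e]
    exact h3

end pow

variable {p : ℕ} [Fact p.Prime]

section act

variable {X : Type*} [MulAction GQ X]

theorem toPermHom_open
    (hsm : ∃ F : IntermediateField ℚ (AlgebraicClosure ℚ), FiniteDimensional ℚ F ∧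
      ∀ g : GQ, (∀ z ∈ F, g z = z) → ∀ x : X, g • x = x) :
    ∃ U ∈ Lall, U ≤ (MulAction.toPermHom GQ X).ker := by
  obtain ⟨F, hF, h⟩ := hsm
  obtain ⟨U, hU, hle⟩ := isOpen_Lall_of_finiteDimensional hF
  refine ⟨U, hU, fun σ hσ => ?_⟩
  rw [MonoidHom.mem_ker]
  ext x
  exact h σ (fun z hz => (IntermediateField.mem_fixingSubgroup_iff F σ).1 (hle hσ) z hz) x

theorem toPermHom_isPGroup (I : Subgroup GQ)
    (hpg : ∀ τ ∈ I, ∃ N : ℕ, ∀ x : X, τ ^ (p ^ N) • x = x) :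
    IsPGroup p (I.map (MulAction.toPermHom GQ X)) := by
  rintro ⟨y, τ, hτ, rfl⟩
  obtain ⟨N, hN⟩ := hpg τ hτ
  refine ⟨N, Subtype.ext ?_⟩
  show (MulAction.toPermHom GQ X τ) ^ (p ^ N) = 1
  rw [← map_pow]
  ext x
  exact hN x

variable {P : Plc} {t0 : GQ}
  (hsm : ∃ F : IntermediateField ℚ (AlgebraicClosure ℚ), FiniteDimensional ℚ F ∧
      ∀ g : GQ, (∀ z ∈ F, g z = z) → ∀ x : X, g • x = x)
  (hpg : ∀ τ ∈ P.ine, ∃ N : ℕ, ∀ x : X, τ ^ (p ^ N) • x = x)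

include hsm hpg

/-- every inertia element acts as a power of `t0`. -/
theorem IsTameGen.exists_zpow_smul (h : IsTameGen p P t0) {τ : GQ} (hτ : τ ∈ P.ine) :
    ∃ n : ℤ, ∀ x : X, τ • x = t0 ^ n • x := by
  obtain ⟨n, hn⟩ := h.exists_zpow (MulAction.toPermHom GQ X) (toPermHom_open hsm)
    (toPermHom_isPGroup P.ine hpg) hτ
  refine ⟨n, fun x => ?_⟩
  rw [← map_zpow] at hn
  exact congrArg (fun e : Equiv.Perm X => e x) hn

/-- every inertia element acts as a power of `t0` (natural exponent). -/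
theorem IsTameGen.exists_pow_smul (h : IsTameGen p P t0) {τ : GQ} (hτ : τ ∈ P.ine) :
    ∃ n : ℕ, ∀ x : X, τ • x = t0 ^ n • x := by
  obtain ⟨n, hn⟩ := h.exists_zpow_smul hsm hpg hτ
  obtain ⟨N, hN⟩ := hpg t0 h.1
  have hpos : (0 : ℤ) < ((p ^ N : ℕ) : ℤ) := by
    exact_mod_cast pow_pos (Fact.out : p.Prime).pos N
  refine ⟨(n % ((p ^ N : ℕ) : ℤ)).toNat, fun x => ?_⟩
  rw [hn x]
  have h1 : n = ((n % ((p ^ N : ℕ) : ℤ)).toNat : ℤ) + ((p ^ N : ℕ) : ℤ) * (n / ((p ^ N : ℕ) : ℤ)) := by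
    rw [Int.toNat_of_nonneg (Int.emod_nonneg _ hpos.ne')]
    exact (Int.emod_add_mul_ediv n _).symm
  conv_lhs => rw [h1]
  rw [zpow_add, mul_smul, zpow_mul, zpow_natCast, zpow_natCast]
  congr 1
  exact zpow_smul_of_fixed (hN x) _

/-- fixed by `t0` ⟹ fixed by the inertia group. -/
theorem IsTameGen.fixed_of_fixed (h : IsTameGen p P t0) {x : X} (hx : t0 • x = x) {τ : GQ}
    (hτ : τ ∈ P.ine) : τ • x = x := by
  obtain ⟨n, hn⟩ := h.exists_zpow_smul hsm hpg hτ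
  rw [hn x]
  exact zpow_smul_of_fixed hx n

/-- the tame relation. -/
theorem IsTameGen.conj_smul (h : IsTameGen p P t0) (hℓ : P.ℓ ≠ p) {φ : GQ}
    (hφ : P.A.IsFrobeniusAt φ P.ℓ) (x : X) : (φ * t0 * φ⁻¹) • x = t0 ^ P.ℓ • x := by
  have h1 := h.conj hℓ (isFrob_of_isFrobeniusAt P hφ) (MulAction.toPermHom GQ X) (toPermHom_open hsm)
    (toPermHom_isPGroup P.ine hpg)
  rw [← map_pow] at h1
  exact congrArg (fun e : Equiv.Perm X => e x) h1

/-- the tame relation, second form. -/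
theorem IsTameGen.frob_mul_smul (h : IsTameGen p P t0) (hℓ : P.ℓ ≠ p) {φ : GQ}
    (hφ : P.A.IsFrobeniusAt φ P.ℓ) (x : X) : (φ * t0) • x = (t0 ^ P.ℓ * φ) • x := by
  have h1 := h.conj_smul hsm hpg hℓ hφ (φ • x)
  rw [← mul_smul, ← mul_smul, inv_mul_cancel_right] at h1
  exact h1

/-- the decomposition group acts through `⟨φ, t0⟩`. -/
theorem IsTameGen.dec_smul (h : IsTameGen p P t0) {φ : GQ}
    (hφ : P.A.IsFrobeniusAt φ P.ℓ) {d : GQ} (hd : d ∈ P.dec) :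
    ∃ (j : ℕ) (n : ℤ), ∀ x : X, d • x = φ ^ j • t0 ^ n • x := by
  obtain ⟨j, n, hjn⟩ := h.exists_pow_mul_zpow (isFrob_of_isFrobeniusAt P hφ)
    (MulAction.toPermHom GQ X) (toPermHom_open hsm) (toPermHom_isPGroup P.ine hpg) hd
  refine ⟨j, n, fun x => ?_⟩
  rw [← map_pow, ← map_zpow, ← map_mul] at hjn
  rw [← mul_smul]
  exact congrArg (fun e : Equiv.Perm X => e x) hjn

end act

/-- **Module form** (request of SIZE): a finite Galois-stable subgroup `W`, `p^k`-torsion, on which inertia is unipotent. -/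
theorem IsTameGen.module {P : Plc} {t0 : GQ} (h : IsTameGen p P t0) (hl : P.ℓ ≠ p)
    {V : Type*} [AddCommGroup V] [DistribMulAction GQ V] (W : AddSubgroup V) [Finite W]
    (hW : ∀ g : GQ, ∀ x ∈ W, g • x ∈ W)
    (hsm : ∃ F : IntermediateField ℚ (AlgebraicClosure ℚ), FiniteDimensional ℚ F ∧
      ∀ g : GQ, (∀ z ∈ F, g z = z) → ∀ x ∈ W, g • x = x)
    (hpk : ∃ k : ℕ, ∀ x ∈ W, p ^ k • x = 0)
    (hunip : ∀ τ ∈ P.A.inertiaSubgroupIn ℚ, ∀ x ∈ W, ∃ M : ℕ, (fun y => τ • y - y)^[M] x = 0) :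
    (∀ x ∈ W, t0 • x = x → ∀ τ ∈ P.A.inertiaSubgroupIn ℚ, τ • x = x) ∧
    (∀ φ : GQ, P.A.IsFrobeniusAt φ P.ℓ → ∀ x ∈ W, (φ * t0 * φ⁻¹) • x = t0 ^ P.ℓ • x) ∧
    t0 ∈ P.A.inertiaSubgroupIn ℚ ∧
    (∀ τ ∈ P.A.inertiaSubgroupIn ℚ, ∃ n : ℕ, ∀ x ∈ W, τ • x = t0 ^ n • x) ∧
    (∀ τ ∈ P.A.inertiaSubgroupIn ℚ, ∃ N : ℕ, ∀ x ∈ W, τ ^ (p ^ N) • x = x) := by
  classical
  obtain ⟨k, hk⟩ := hpk
  letI : MulAction GQ W :=
    { smul := fun g x => ⟨g • x.1, hW g x.1 x.2⟩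
      one_smul := fun x => Subtype.ext (one_smul GQ x.1)
      mul_smul := fun g g' x => Subtype.ext (mul_smul g g' x.1) }
  have hcoe : ∀ (g : GQ) (x : W), ((g • x : W) : V) = g • (x : V) := fun _ _ => rfl
  have hsm' : ∃ F : IntermediateField ℚ (AlgebraicClosure ℚ), FiniteDimensional ℚ F ∧
      ∀ g : GQ, (∀ z ∈ F, g z = z) → ∀ x : W, g • x = x := by
    obtain ⟨F, hF, hh⟩ := hsm
    exact ⟨F, hF, fun g hg x => Subtype.ext (hh g hg x.1 x.2)⟩
  have hpgV : ∀ τ ∈ P.ine, ∃ N : ℕ, ∀ x ∈ W, τ ^ (p ^ N) • x = x := by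
    intro τ hτ
    choose M hM using fun x : W => hunip τ hτ x.1 x.2
    have := Fintype.ofFinite W
    refine ⟨k * ∑ x : W, M x, fun x hx => ?_⟩
    have h1 := pow_smul_eq_of_unip p k τ W (hW τ) hk (M ⟨x, hx⟩) x hx (hM ⟨x, hx⟩)
    have hle : M ⟨x, hx⟩ ≤ ∑ x : W, M x :=
      Finset.single_le_sum (f := M) (fun _ _ => Nat.zero_le _) (Finset.mem_univ _)
    obtain ⟨c, hc⟩ := Nat.exists_eq_add_of_le hle
    rw [hc, mul_add, pow_add, pow_mul]
    exact pow_smul_of_fixed h1 _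
  have hpg : ∀ τ ∈ P.ine, ∃ N : ℕ, ∀ x : W, τ ^ (p ^ N) • x = x := by
    intro τ hτ
    obtain ⟨N, hN⟩ := hpgV τ hτ
    exact ⟨N, fun x => Subtype.ext (hN x.1 x.2)⟩
  refine ⟨fun x hx hx0 τ hτ => ?_, fun φ hφ x hx => ?_, h.1, fun τ hτ => ?_, hpgV⟩
  · have := h.fixed_of_fixed hsm' hpg (x := ⟨x, hx⟩) (Subtype.ext hx0) hτ
    exact congrArg Subtype.val this
  · have := h.conj_smul hsm' hpg hl hφ (⟨x, hx⟩ : W)
    exact congrArg Subtype.val this
  · obtain ⟨n, hn⟩ := h.exists_pow_smul hsm' hpg hτ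
    exact ⟨n, fun x hx => congrArg Subtype.val (hn ⟨x, hx⟩)⟩

end Fermat.Agent.S43.Loc
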