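import Fermat.Agent.S56.Lq.TameMain
import Fermat.Agent.S56.F.LF.FrobEll
import Fermat.Agent.PT.Global.Cyc.FrobQ

/-!
# S43 / Loc / Gen : the image of a decomposition group at `v ≠ p` in a finite group

* `zpowers_eq_top_of_hom` (pure group theory): a finite `p`-group `G` is generated by `g` as soon as every
  homomorphism `G → ℤ/p` killing `g` is trivial.
* `IsTameGen p P τ₀` : `τ₀ ∈ I_v` and every smooth `c : G_ℚ → 𝔽_p`, additive on `I_v`, with `c τ₀ = 0` vanishes on `I_v`;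
  `exists_isTameGen` (from `S56.Lq.exists_isTame`).
* `IsTameGen.map_ine` : for `f : G_ℚ →* H` with open kernel and `f(I_v)` a `p`-group: `f(I_v) = ⟨f τ₀⟩`.
* `IsTameGen.map_dec` : moreover `f(D_v) = ⟨f φ, f τ₀⟩` for a Frobenius element `φ`.
-/

set_option autoImplicit false

namespace Fermat.Agent.S43.Loc

open Fermat.Agent.PT
open Fermat.Agent.PT.Local (Qb Plc IsFrob)

/-- A finite `p`-group is generated by `g` if every character `G → ℤ/p` killing `g` is trivial. -/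
theorem zpowers_eq_top_of_hom {p : ℕ} [hp : Fact p.Prime] {G : Type*} [Group G] [Finite G]
    (hG : IsPGroup p G) (g : G)
    (h : ∀ c : G →* Multiplicative (ZMod p), c g = 1 → ∀ x, c x = 1) :
    Subgroup.zpowers g = ⊤ := by
  by_contra hne
  obtain ⟨M, hM, hle⟩ := (eq_top_or_exists_le_coatom (Subgroup.zpowers g)).resolve_left hne
  have hnil : Group.IsNilpotent G := hG.isNilpotent
  have hnorm : M.Normal :=
    Subgroup.NormalizerCondition.normal_of_coatom M (Group.normalizerCondition_of_isNilpotent) hM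
  -- the index of `M` is `p`
  have hcard : Nat.card (G ⧸ M) = p := by
    obtain ⟨n, hn⟩ := hG.exists_card_eq
    obtain ⟨m, hm⟩ := (hG.to_subgroup M).exists_card_eq
    have hlt : m < n := by
      by_contra hcon
      push Not at hcon
      have h1 : Nat.card M ≤ Nat.card G := Subgroup.card_le_card_group M
      have h2 : Nat.card G ≤ Nat.card M := by
        rw [hn, hm]; exact Nat.pow_le_pow_right hp.out.pos hcon
      exact hM.1 (Subgroup.eq_top_of_card_eq M (le_antisymm h1 h2))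
    obtain ⟨K, hK, hMK⟩ := Sylow.exists_subgroup_card_pow_succ (p := p) (n := m)
      (by rw [hn]; exact pow_dvd_pow p hlt) hm
    have hKM : K ≠ M := by
      rintro rfl
      rw [hm] at hK
      exact absurd (Nat.pow_right_injective hp.out.two_le hK) (by omega)
    have hKtop : K = ⊤ := hM.2 K (lt_of_le_of_ne hMK (Ne.symm hKM))
    have h3 : Nat.card G = p ^ (m + 1) := by
      rw [← hK, hKtop]; exact (Subgroup.card_top).symm
    have h4 := Subgroup.card_eq_card_quotient_mul_card_subgroup M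
    rw [h3, hm, pow_succ, mul_comm] at h4
    exact (Nat.eq_of_mul_eq_mul_right (pow_pos hp.out.pos m) h4).symm
  let e : (G ⧸ M) ≃* Multiplicative (ZMod p) :=
    mulEquivOfPrimeCardEq (p := p) hcard (by simp [Nat.card_eq_fintype_card, ZMod.card])
  let c : G →* Multiplicative (ZMod p) := e.toMonoidHom.comp (QuotientGroup.mk' M)
  have hcg : c g = 1 := by
    have : (QuotientGroup.mk' M) g = 1 :=
      (QuotientGroup.eq_one_iff g).2 (hle (Subgroup.mem_zpowers g))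
    show e ((QuotientGroup.mk' M) g) = 1
    rw [this, map_one]
  apply hM.1
  rw [eq_top_iff]
  intro x _
  have h1 : e ((QuotientGroup.mk' M) x) = 1 := h c hcg x
  have h2 : (QuotientGroup.mk' M) x = 1 := by
    rw [← map_one e] at h1
    exact e.injective h1
  exact (QuotientGroup.eq_one_iff x).1 h2

variable (p : ℕ) [Fact p.Prime]

/-- `τ₀` is a (topological) generator of the maximal pro-`p` quotient of the inertia group of `P`. -/
def IsTameGen (P : Plc) (τ₀ : GQ) : Prop :=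
  τ₀ ∈ P.ine ∧ ∀ c : GQ → ZMod p, Inh.LC1 Lall c →
    (∀ σ ∈ P.ine, ∀ τ ∈ P.ine, c (σ * τ) = c σ + c τ) → c τ₀ = 0 → ∀ τ ∈ P.ine, c τ = 0

theorem exists_isTameGen (P : Plc) (hℓ : P.ℓ ≠ p) : ∃ τ₀ : GQ, IsTameGen p P τ₀ := by
  obtain ⟨κ, τ₀, h⟩ := Fermat.Agent.S56.Lq.exists_isTame (p := p) P hℓ P.dec rfl
  have hle : P.ine ≤ P.dec := Local.ine_le_dec P
  refine ⟨τ₀, h.mem, fun c hc hadd h0 τ hτ => ?_⟩
  obtain ⟨U, hU, hUc⟩ := hc
  have h1 := h.univ (fun d => c d) ⟨_, ⟨U, hU, rfl⟩, fun g s hs => hUc g s hs⟩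
    (fun σ hσ τ hτ => hadd σ hσ τ hτ) ⟨τ, hle hτ⟩ hτ
  simp only at h1
  rw [h1, h0, mul_zero]

variable {p}

/-- `f(I_v) = ⟨f τ₀⟩` if `f` has open kernel and `f(I_v)` is a `p`-group. -/
theorem IsTameGen.map_ine {P : Plc} {τ₀ : GQ} (h : IsTameGen p P τ₀) {H : Type*} [Group H]
    (f : GQ →* H) (hf : ∃ U ∈ Lall, U ≤ f.ker) (hp : IsPGroup p (P.ine.map f)) :
    P.ine.map f = Subgroup.zpowers (f τ₀) := by
  classical
  obtain ⟨U, hU, hUf⟩ := hf
  have hfi : U.FiniteIndex := Lall.finiteIndex' U hU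
  have hker : f.ker.FiniteIndex := Subgroup.finiteIndex_of_le hUf
  have hfin : Finite f.range := Finite.of_equiv _ (QuotientGroup.quotientKerEquivRange f).toEquiv
  have hfin' : Finite (P.ine.map f) :=
    Finite.of_injective (fun x : P.ine.map f => (⟨x.1, by
      obtain ⟨y, _, hy⟩ := x.2
      exact ⟨y, hy⟩⟩ : f.range)) (fun x y hxy => Subtype.ext (congrArg (fun z : f.range => z.1) hxy))
  have hg : f τ₀ ∈ P.ine.map f := ⟨τ₀, h.1, rfl⟩
  have key := zpowers_eq_top_of_hom hp (⟨f τ₀, hg⟩ : P.ine.map f) (by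
    intro c hc x
    let c' : GQ → ZMod p := fun σ =>
      if hσ : f σ ∈ P.ine.map f then Multiplicative.toAdd (c ⟨f σ, hσ⟩) else 0
    have hval : ∀ σ (hσ : σ ∈ P.ine), c' σ = Multiplicative.toAdd (c ⟨f σ, ⟨σ, hσ, rfl⟩⟩) := by
      intro σ hσ
      have : f σ ∈ P.ine.map f := ⟨σ, hσ, rfl⟩
      simp only [c', dif_pos this]
    have hLC : Inh.LC1 Lall c' := by
      refine ⟨U, hU, fun g s hs => ?_⟩
      have : f (g * s) = f g := by
        rw [map_mul, (MonoidHom.mem_ker).1 (hUf hs), mul_one]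
      simp only [c', this]
    obtain ⟨y, hy, hyx⟩ := x.2
    have h1 := h.2 c' hLC (by
      intro σ hσ τ hτ
      rw [hval σ hσ, hval τ hτ, hval _ (P.ine.mul_mem hσ hτ), ← toAdd_mul, ← map_mul]
      congr 2
      exact Subtype.ext (map_mul f σ τ)) (by
      rw [hval τ₀ h.1, hc]; rfl) y hy
    rw [hval y hy] at h1
    have h2 : (⟨f y, ⟨y, hy, rfl⟩⟩ : P.ine.map f) = x := Subtype.ext hyx
    rw [h2] at h1
    exact h1)
  apply le_antisymm
  · intro x hx
    have h1 : (⟨x, hx⟩ : P.ine.map f) ∈ Subgroup.zpowers (⟨f τ₀, hg⟩ : P.ine.map f) := by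
      rw [key]; trivial
    obtain ⟨n, hn⟩ := Subgroup.mem_zpowers_iff.1 h1
    refine Subgroup.mem_zpowers_iff.2 ⟨n, ?_⟩
    have := congrArg Subtype.val hn
    simpa using this
  · rw [Subgroup.zpowers_le]
    exact hg

/-- every inertia element acts as a power of `τ₀`. -/
theorem IsTameGen.exists_zpow {P : Plc} {τ₀ : GQ} (h : IsTameGen p P τ₀) {H : Type*} [Group H]
    (f : GQ →* H) (hf : ∃ U ∈ Lall, U ≤ f.ker) (hp : IsPGroup p (P.ine.map f)) {τ : GQ}
    (hτ : τ ∈ P.ine) : ∃ n : ℤ, f τ = f τ₀ ^ n := by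
  have h1 : f τ ∈ P.ine.map f := ⟨τ, hτ, rfl⟩
  rw [h.map_ine f hf hp] at h1
  obtain ⟨n, hn⟩ := Subgroup.mem_zpowers_iff.1 h1
  exact ⟨n, hn.symm⟩

/-- every element of the decomposition group acts as `φ ^ j * τ₀ ^ n`. -/
theorem IsTameGen.exists_pow_mul_zpow {P : Plc} {τ₀ φ : GQ} (h : IsTameGen p P τ₀)
    (hφ : IsFrob P P.ℓ φ) {H : Type*} [Group H]
    (f : GQ →* H) (hf : ∃ U ∈ Lall, U ≤ f.ker) (hp : IsPGroup p (P.ine.map f)) {d : GQ}
    (hd : d ∈ P.dec) : ∃ (j : ℕ) (n : ℤ), f d = f φ ^ j * f τ₀ ^ n := by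
  obtain ⟨U, ⟨hn, N, hN, rfl⟩, hUf⟩ := hf
  have := hN
  obtain ⟨j, τ, hτ, u, _, hu, rfl⟩ := Fermat.Agent.S56.F.LF.dec_gen P hφ N hd
  obtain ⟨n, hn'⟩ := h.exists_zpow f ⟨_, ⟨hn, N, hN, rfl⟩, hUf⟩ hp hτ
  refine ⟨j, n, ?_⟩
  have hu1 : f u = 1 := by
    apply (MonoidHom.mem_ker).1
    apply hUf
    rw [IntermediateField.mem_fixingSubgroup_iff]
    exact hu
  rw [map_mul, map_mul, map_pow, hu1, mul_one, hn']

/-- `f(D_v) = ⟨f φ, f τ₀⟩`. -/
theorem IsTameGen.map_dec {P : Plc} {τ₀ φ : GQ} (h : IsTameGen p P τ₀)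
    (hφ : IsFrob P P.ℓ φ) {H : Type*} [Group H]
    (f : GQ →* H) (hf : ∃ U ∈ Lall, U ≤ f.ker) (hp : IsPGroup p (P.ine.map f)) :
    P.dec.map f = Subgroup.closure {f φ, f τ₀} := by
  apply le_antisymm
  · rintro _ ⟨d, hd, rfl⟩
    obtain ⟨j, n, e⟩ := h.exists_pow_mul_zpow hφ f hf hp hd
    rw [e]
    exact Subgroup.mul_mem _ (Subgroup.pow_mem _ (Subgroup.subset_closure (by simp)) _)
      (Subgroup.zpow_mem _ (Subgroup.subset_closure (by simp)) _)
  · rw [Subgroup.closure_le]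
    rintro x (rfl | rfl)
    · exact ⟨φ, hφ.1, rfl⟩
    · exact ⟨τ₀, Local.ine_le_dec P h.1, rfl⟩

/-- a Frobenius element in the sense of the prelude is one in the sense of `PT.Local`. -/
theorem isFrob_of_isFrobeniusAt (P : Plc) {φ : GQ} (hφ : P.A.IsFrobeniusAt φ P.ℓ) :
    IsFrob P P.ℓ φ :=
  ⟨hφ.mem_decompositionSubgroup, fun x hx =>
    (ValuationSubring.mem_nonunits_iff P.A).1
      (Fermat.Agent.PT.FrobQ_sub_pow_mem_nonunits P.A hφ hx)⟩

end Fermat.Agent.S43.Loc
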