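import Fermat.Agent.S43.Loc.Gen

/-!
# S43 / Loc / Conj : the tame relation `φ τ₀ φ⁻¹ = τ₀ ^ ℓ` in every finite `p`-quotient of inertia

* `IsTameGen.exists_zpow_fun` : version of `IsTameGen.exists_zpow` for functions `F : G_ℚ → H` which are smooth and multiplicative
  on the inertia group only.
* `IsTameGen.conj` : `f (φ τ₀ φ⁻¹) = f τ₀ ^ ℓ` for `f : G_ℚ →* H` with open kernel, `f(I_v)` a `p`-group, `φ` a Frobenius element.
  (Apply `exists_zpow_fun` to `τ ↦ (f τ, τ β / β)`, `β ^ (p ^ (e+1)) = ℓ`.)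
* `IsTameGen.pow_pred_eq_one_of_comm` : if moreover `f φ` commutes with `f τ₀` then `f τ₀ ^ (ℓ - 1) = 1`.
-/

set_option autoImplicit false

namespace Fermat.Agent.S43.Loc

open Fermat.Agent.PT
open Fermat.Agent.PT.Local (Qb Plc IsFrob)
open Fermat.Agent.S56.Lq (kapR kapR_mul kapR_smooth kapR_eq_zero_iff exists_kapR_eq_one
  cycloChar_eq_one_of_mem_ine)
open Fermat.Agent.S36R.K0L (isUnif_ell li_bot)

variable {p : ℕ} [Fact p.Prime]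

theorem IsTameGen.exists_zpow_fun {P : Plc} {τ₀ : GQ} (h : IsTameGen p P τ₀) {H : Type*} [Group H]
    (F : GQ → H) (hLC : Inh.LC1 Lall F)
    (hmul : ∀ σ ∈ P.ine, ∀ τ ∈ P.ine, F (σ * τ) = F σ * F τ)
    (hp : ∀ τ ∈ P.ine, ∃ k : ℕ, F τ ^ p ^ k = 1) {τ : GQ} (hτ : τ ∈ P.ine) :
    ∃ n : ℤ, F τ = F τ₀ ^ n := by
  classical
  obtain ⟨U, hU, hUF⟩ := hLC
  have hfi : U.FiniteIndex := Lall.finiteIndex' U hU
  let FI : P.ine →* H := MonoidHom.mk' (fun x => F x) (fun a b => hmul a a.2 b b.2)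
  have hFI : ∀ x : P.ine, FI x = F x := fun _ => rfl
  have hrange : (Set.range F).Finite := by
    refine (Set.finite_range (fun x : GQ ⧸ U => F x.out)).subset ?_
    rintro _ ⟨g, rfl⟩
    obtain ⟨s, hs⟩ := QuotientGroup.mk_out_eq_mul U g
    exact ⟨(g : GQ ⧸ U), by simp only [hs]; exact hUF g s s.2⟩
  have hfin : Finite FI.range := by
    have := hrange.to_subtype
    exact Finite.of_injective (fun x : FI.range => (⟨x.1, by
      obtain ⟨y, hy⟩ := x.2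
      exact ⟨y, hy⟩⟩ : Set.range F))
      (fun x y hxy => Subtype.ext (congrArg (fun z : Set.range F => z.1) hxy))
  have hpG : IsPGroup p FI.range := by
    rintro ⟨_, ⟨x, rfl⟩⟩
    obtain ⟨k, hk⟩ := hp x x.2
    exact ⟨k, Subtype.ext hk⟩
  have hmem : ∀ σ (hσ : σ ∈ P.ine), F σ ∈ FI.range := fun σ hσ => ⟨⟨σ, hσ⟩, rfl⟩
  have key := zpowers_eq_top_of_hom hpG (⟨F τ₀, hmem τ₀ h.1⟩ : FI.range) (by
    intro c hc x
    let c' : GQ → ZMod p := fun σ =>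
      if hσ : F σ ∈ FI.range then Multiplicative.toAdd (c ⟨F σ, hσ⟩) else 0
    have hval : ∀ σ (hσ : σ ∈ P.ine), c' σ = Multiplicative.toAdd (c ⟨F σ, hmem σ hσ⟩) := by
      intro σ hσ
      simp only [c', dif_pos (hmem σ hσ)]
    have hLC' : Inh.LC1 Lall c' := by
      refine ⟨U, hU, fun g s hs => ?_⟩
      simp only [c', hUF g s hs]
    obtain ⟨y, hyx⟩ := x.2
    have h1 := h.2 c' hLC' (by
      intro σ hσ τ hτ
      rw [hval σ hσ, hval τ hτ, hval _ (P.ine.mul_mem hσ hτ), ← toAdd_mul, ← map_mul]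
      congr 2
      exact Subtype.ext (hmul σ hσ τ hτ)) (by
      rw [hval τ₀ h.1, hc]; rfl) y y.2
    rw [hval y y.2] at h1
    have h2 : (⟨F y, hmem y y.2⟩ : FI.range) = x := Subtype.ext hyx
    rw [h2] at h1
    exact h1)
  have h1 : (⟨F τ, hmem τ hτ⟩ : FI.range) ∈ Subgroup.zpowers (⟨F τ₀, hmem τ₀ h.1⟩ : FI.range) := by
    rw [key]; trivial
  obtain ⟨n, hn⟩ := Subgroup.mem_zpowers_iff.1 h1
  refine ⟨n, ?_⟩
  have := congrArg Subtype.val hn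
  simpa using this.symm

/-- **The tame relation.** -/
theorem IsTameGen.conj {P : Plc} {τ₀ φ : GQ} (h : IsTameGen p P τ₀) (hℓ : P.ℓ ≠ p)
    (hφ : IsFrob P P.ℓ φ) {H : Type*} [Group H]
    (f : GQ →* H) (hf : ∃ U ∈ Lall, U ≤ f.ker) (hp : IsPGroup p (P.ine.map f)) :
    f (φ * τ₀ * φ⁻¹) = f τ₀ ^ P.ℓ := by
  have hpp : p.Prime := Fact.out
  obtain ⟨e, he⟩ := hp ⟨f τ₀, ⟨τ₀, h.1, rfl⟩⟩
  have he : f τ₀ ^ p ^ e = 1 := congrArg Subtype.val he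
  set n : ℕ := p ^ (e + 1) with hn
  have hn0 : n ≠ 0 := pow_ne_zero _ hpp.ne_zero
  have hnℓ : n.Coprime P.ℓ :=
    Nat.Coprime.pow_left _ ((Nat.coprime_primes hpp P.prime).2 (Ne.symm hℓ))
  obtain ⟨β, hβ⟩ := IsAlgClosed.exists_pow_nat_eq (P.ℓ : Qb) (Nat.pos_of_ne_zero hn0)
  have hβ0 : β ≠ 0 := by
    rintro rfl
    rw [zero_pow hn0] at hβ
    exact P.prime.ne_zero (by exact_mod_cast hβ.symm)
  have hz0 : ∀ τ : GQ, τ β / β ≠ 0 := fun τ =>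
    div_ne_zero ((map_ne_zero τ).2 hβ0) hβ0
  have hzn : ∀ τ : GQ, (τ β / β) ^ n = 1 := by
    intro τ
    rw [div_pow, ← map_pow, hβ, map_natCast, div_self]
    exact_mod_cast P.prime.ne_zero
  have hτβ : ∀ τ : GQ, τ β = (τ β / β) * β := fun τ => by field_simp
  let Z : GQ → Qbˣ := fun τ => Units.mk0 (τ β / β) (hz0 τ)
  have hfixz : ∀ σ ∈ P.ine, ∀ τ : GQ, σ (τ β / β) = τ β / β := fun σ hσ τ =>
    Levels_inertia_fix_root P.A hn0 hnℓ P.liesOver hσ (hzn τ)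
  let F : GQ → H × Qbˣ := fun τ => (f τ, Z τ)
  have hLC : Inh.LC1 Lall F := by
    obtain ⟨U₁, hU₁, h₁⟩ := hf
    obtain ⟨U₂, hU₂, h₂⟩ := exists_level_fixing β
    obtain ⟨W, hW, hW₁, hW₂⟩ := Lall.directed' U₁ hU₁ U₂ hU₂
    refine ⟨W, hW, fun g s hs => ?_⟩
    have e1 : f (g * s) = f g := by
      rw [map_mul, (MonoidHom.mem_ker).1 (h₁ (hW₁ hs)), mul_one]
    have e2 : (g * s) β = g β := by
      show g (s β) = g β
      rw [h₂ s (hW₂ hs)]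
    refine Prod.ext e1 (Units.ext ?_)
    show (g * s) β / β = g β / β
    rw [e2]
  have hmul : ∀ σ ∈ P.ine, ∀ τ ∈ P.ine, F (σ * τ) = F σ * F τ := by
    intro σ hσ τ _
    refine Prod.ext (map_mul f σ τ) (Units.ext ?_)
    show (σ * τ) β / β = (σ β / β) * (τ β / β)
    have e1 : (σ * τ) β = σ (τ β) := rfl
    rw [e1, hτβ τ, map_mul, hfixz σ hσ τ]
    field_simp
  have hpF : ∀ τ ∈ P.ine, ∃ k : ℕ, F τ ^ p ^ k = 1 := by
    intro τ hτ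
    obtain ⟨k, hk⟩ := hp ⟨f τ, ⟨τ, hτ, rfl⟩⟩
    have hk : f τ ^ p ^ k = 1 := congrArg Subtype.val hk
    refine ⟨k + (e + 1), Prod.ext ?_ (Units.ext ?_)⟩
    · show f τ ^ p ^ (k + (e + 1)) = 1
      rw [pow_add, pow_mul, hk, one_pow]
    · show (τ β / β) ^ p ^ (k + (e + 1)) = 1
      rw [pow_add, mul_comm, pow_mul, ← hn, hzn τ, one_pow]
  have hτ' : φ * τ₀ * φ⁻¹ ∈ P.ine := Local.ine_normal P hφ.1 h.1
  obtain ⟨m, hm⟩ := h.exists_zpow_fun F hLC hmul hpF hτ'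
  have hm1 : f (φ * τ₀ * φ⁻¹) = f τ₀ ^ m := congrArg Prod.fst hm
  have hm2 : Z (φ * τ₀ * φ⁻¹) = Z τ₀ ^ m := congrArg Prod.snd hm
  -- the action on `β`
  have hζA : τ₀ β / β ∈ P.A := Levels_mem_of_pow_eq_one P.A hn0 (hzn τ₀)
  have hφζ : φ (τ₀ β / β) = (τ₀ β / β) ^ P.ℓ := by
    refine FrobQ_eq_of_sub_mem_nonunits P.A hn0 hnℓ P.liesOver ?_ ?_ ?_
    · rw [← map_pow, hzn τ₀, map_one]
    · rw [← pow_mul, mul_comm, pow_mul, hzn τ₀, one_pow]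
    · exact (ValuationSubring.mem_nonunits_iff P.A).2 (hφ.2 _ hζA)
  have hZ : Z (φ * τ₀ * φ⁻¹) = Z τ₀ ^ P.ℓ := by
    refine Units.ext ?_
    show (φ * τ₀ * φ⁻¹) β / β = ((Z τ₀ ^ P.ℓ : Qbˣ) : Qb)
    rw [Units.val_pow_eq_pow_val]
    show (φ * τ₀ * φ⁻¹) β / β = (τ₀ β / β) ^ P.ℓ
    have e1 : (φ * τ₀ * φ⁻¹) β = φ (τ₀ (φ⁻¹ β)) := rfl
    have e2 : τ₀ (φ⁻¹ β) = (τ₀ β / β) * φ⁻¹ β := by
      rw [hτβ φ⁻¹, map_mul, hfixz τ₀ h.1 φ⁻¹]
      field_simp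
    have e3 : φ (φ⁻¹ β) = β := by
      show (φ * φ⁻¹) β = β
      rw [mul_inv_cancel]; rfl
    rw [e1, e2, map_mul, e3, hφζ]
    field_simp
  -- the order of `ζ`
  have hord : orderOf (Z τ₀) = p ^ (e + 1) := by
    refine orderOf_eq_prime_pow ?_ (Units.ext ?_)
    · intro hcon
      have h1 : (τ₀ β / β) ^ p ^ e = 1 := by
        have := congrArg Units.val hcon
        rwa [Units.val_pow_eq_pow_val] at this
      set β₁ : Qb := β ^ p ^ e with hβ₁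
      have hβ₁0 : β₁ ≠ 0 := pow_ne_zero _ hβ0
      have hβ₁p : β₁ ^ p = (P.ℓ : Qb) := by
        rw [hβ₁, ← pow_mul, ← pow_succ, ← hn, hβ]
      have hfix : ∀ g : GQ, g (β₁ ^ p) = β₁ ^ p := fun g => by rw [hβ₁p, map_natCast]
      have h2 : τ₀ β₁ = β₁ := by
        rw [div_pow, ← map_pow, div_eq_one_iff_eq hβ₁0] at h1
        exact h1
      have h3 := h.2 (kapR p β₁) (kapR_smooth β₁) (by
        intro σ hσ τ _
        rw [kapR_mul hβ₁0 (hfix σ) (hfix τ), cycloChar_eq_one_of_mem_ine P hℓ hσ, Units.val_one,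
          one_mul]) ((kapR_eq_zero_iff hβ₁0 (hfix τ₀)).2 h2)
      obtain ⟨τ₁, hτ₁, h4⟩ := exists_kapR_eq_one P ⊥ hℓ (isUnif_ell P) hβ₁p
      rw [li_bot] at hτ₁
      rw [h3 τ₁ hτ₁] at h4
      exact zero_ne_one h4
    · rw [Units.val_pow_eq_pow_val]
      exact hzn τ₀
  have hmod : m ≡ (P.ℓ : ℤ) [ZMOD (p ^ (e + 1) : ℕ)] := by
    rw [← hord, ← zpow_eq_zpow_iff_modEq, zpow_natCast, ← hm2, hZ]
  obtain ⟨t, ht⟩ := hmod.dvd
  have hm' : m = (P.ℓ : ℤ) - ((p ^ (e + 1) : ℕ) : ℤ) * t := by linarith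
  have he' : f τ₀ ^ ((p ^ (e + 1) : ℕ) : ℤ) = 1 := by
    rw [zpow_natCast, pow_succ, pow_mul, he, one_pow]
  rw [hm1, hm', zpow_sub, zpow_mul, he', one_zpow, inv_one, mul_one, zpow_natCast]

/-- if `f φ` and `f τ₀` commute then `f τ₀ ^ (ℓ - 1) = 1`. -/
theorem IsTameGen.pow_pred_eq_one_of_comm {P : Plc} {τ₀ φ : GQ} (h : IsTameGen p P τ₀)
    (hℓ : P.ℓ ≠ p) (hφ : IsFrob P P.ℓ φ) {H : Type*} [Group H]
    (f : GQ →* H) (hf : ∃ U ∈ Lall, U ≤ f.ker) (hp : IsPGroup p (P.ine.map f))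
    (hc : f φ * f τ₀ = f τ₀ * f φ) : f τ₀ ^ (P.ℓ - 1) = 1 := by
  have h1 := h.conj hℓ hφ f hf hp
  rw [map_mul, map_mul, map_inv, hc, mul_inv_cancel_right] at h1
  have h2 : P.ℓ = (P.ℓ - 1) + 1 := (Nat.sub_add_cancel P.prime.one_lt.le).symm
  rw [h2, pow_succ] at h1
  exact right_eq_mul.1 h1

end Fermat.Agent.S43.Loc
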