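import Fermat.Agent.S43.Loc.Conj

/-!
# S43 / Loc / ConvTG : a converse: "generates the image of inertia in every `p`-quotient" ⟹ `IsTameGen`

`isTameGen_of_gen` : if `σ ∈ I_v` and for every smooth `r : G_ℚ →* B` (`B : Type`) mapping `I_v` to `p`-power torsion elements
`r(I_v) ⊆ ⟨r σ⟩`, then `IsTameGen p P σ`.  (So `Geo.IsTG p s A σ → Loc.IsTameGen p ⟨A, s, _, _⟩ σ`.)
-/

set_option autoImplicit false

namespace Fermat.Agent.S43.Loc

open Fermat.Agent.PT
open Fermat.Agent.PT.Local (Qb Plc IsFrob)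
open Fermat.Agent.S56.Lq (kapR kapR_mul kapR_smooth kapR_eq_zero_iff exists_kapR_eq_one
  cycloChar_eq_one_of_mem_ine)
open Fermat.Agent.S36R.K0L (isUnif_ell li_bot)

variable {p : ℕ} [Fact p.Prime]

/-- the `p`-th roots of `a`. -/
def RootsP (p : ℕ) (a : Qb) : Type := {x : Qb // x ^ p = a}

noncomputable instance rootsPAction (a : ℚ) : MulAction GQ (RootsP p (algebraMap ℚ Qb a)) where
  smul g x := ⟨g x.1, by rw [← map_pow, x.2, AlgEquiv.commutes]⟩
  one_smul x := Subtype.ext rfl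
  mul_smul g h x := Subtype.ext rfl

theorem rootsP_smul_val (a : ℚ) (g : GQ) (x : RootsP p (algebraMap ℚ Qb a)) :
    (g • x).1 = g x.1 := rfl

theorem pow_smul_of_fix {τ : GQ} {x z : Qb} (h1 : τ x = z * x) (h2 : τ z = z) (j : ℕ) :
    (τ ^ j) x = z ^ j * x := by
  induction j with
  | zero => simp
  | succ j ih =>
    rw [pow_succ']
    show τ ((τ ^ j) x) = _
    rw [ih, map_mul, map_pow, h2, h1]
    ring

theorem isTameGen_of_gen (P : Plc) (hℓ : P.ℓ ≠ p) {σ : GQ} (hσ : σ ∈ P.ine)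
    (h : ∀ (B : Type) [Group B] (r : GQ →* B),
      (∃ K : IntermediateField ℚ Qb, FiniteDimensional ℚ K ∧ K.fixingSubgroup ≤ r.ker) →
      (∀ τ ∈ P.ine, ∃ k : ℕ, r τ ^ p ^ k = 1) → ∀ τ ∈ P.ine, ∃ j : ℕ, r τ = r σ ^ j) :
    IsTameGen p P σ := by
  classical
  have hpp : p.Prime := Fact.out
  have hp0 : p ≠ 0 := hpp.ne_zero
  have hcop : p.Coprime P.ℓ := (Nat.coprime_primes hpp P.prime).2 (Ne.symm hℓ)
  obtain ⟨β, hβ⟩ := IsAlgClosed.exists_pow_nat_eq (P.ℓ : Qb) hpp.pos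
  have hℓ0 : (P.ℓ : Qb) ≠ 0 := by exact_mod_cast P.prime.ne_zero
  have hβ0 : β ≠ 0 := by
    rintro rfl
    rw [zero_pow hp0] at hβ
    exact hℓ0 hβ.symm
  have hfix : ∀ g : GQ, g (β ^ p) = β ^ p := fun g => by rw [hβ, map_natCast]
  have hadd : ∀ a ∈ P.ine, ∀ b ∈ P.ine, kapR p β (a * b) = kapR p β a + kapR p β b := by
    intro a ha b _
    rw [kapR_mul hβ0 (hfix a) (hfix b), cycloChar_eq_one_of_mem_ine P hℓ ha, Units.val_one, one_mul]
  obtain ⟨τ₁, hτ₁, hκ₁⟩ := exists_kapR_eq_one P ⊥ hℓ (isUnif_ell P) hβ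
  rw [li_bot] at hτ₁
  -- `κ σ ≠ 0`
  have hcast : (P.ℓ : Qb) = algebraMap ℚ Qb (P.ℓ : ℚ) := by simp
  have hκσ : kapR p β σ ≠ 0 := by
    intro h0
    have hσβ : σ β = β := (kapR_eq_zero_iff hβ0 (hfix σ)).1 h0
    let R := RootsP p (algebraMap ℚ Qb (P.ℓ : ℚ))
    let r : GQ →* Equiv.Perm R := MulAction.toPermHom GQ R
    have hr : ∀ (g : GQ) (x : R), ((r g) x).1 = g x.1 := fun _ _ => rfl
    let b : R := ⟨β, by rw [hβ, hcast]⟩
    have hsm : ∃ K : IntermediateField ℚ Qb, FiniteDimensional ℚ K ∧ K.fixingSubgroup ≤ r.ker := by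
      let S : Set Qb := ↑(Polynomial.nthRoots p (P.ℓ : Qb)).toFinset
      have hS : ∀ x : Qb, x ∈ S ↔ x ^ p = (P.ℓ : Qb) := by
        intro x
        simp only [S, Finset.mem_coe, Multiset.mem_toFinset, Polynomial.mem_nthRoots hpp.pos]
      haveI : Finite S := Finset.finite_toSet _
      refine ⟨IntermediateField.adjoin ℚ S, IntermediateField.finiteDimensional_adjoin
        (fun x _ => (Algebra.IsIntegral.isIntegral x)), fun g hg => ?_⟩
      rw [MonoidHom.mem_ker]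
      refine Equiv.ext fun x => Subtype.ext ?_
      rw [hr]
      have hx : x.1 ∈ IntermediateField.adjoin ℚ S :=
        IntermediateField.subset_adjoin ℚ S ((hS _).2 (by rw [x.2, hcast]))
      exact (IntermediateField.mem_fixingSubgroup_iff _ _).1 hg _ hx
    have hpt : ∀ τ ∈ P.ine, ∃ k : ℕ, r τ ^ p ^ k = 1 := by
      intro τ hτ
      refine ⟨1, ?_⟩
      rw [pow_one, ← map_pow]
      refine Equiv.ext fun x => Subtype.ext ?_
      rw [hr]
      have hx0 : x.1 ≠ 0 := by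
        intro h0
        have := x.2
        rw [h0, zero_pow hp0, ← hcast] at this
        exact hℓ0 this.symm
      have hz : (τ x.1 / x.1) ^ p = 1 := by
        rw [div_pow, ← map_pow, x.2, AlgEquiv.commutes, div_self]
        rw [← hcast]; exact hℓ0
      have h1 : τ x.1 = (τ x.1 / x.1) * x.1 := by field_simp
      have h2 : τ (τ x.1 / x.1) = τ x.1 / x.1 :=
        Levels_inertia_fix_root P.A hp0 hcop P.liesOver hτ hz
      rw [pow_smul_of_fix h1 h2, hz, one_mul]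
      rfl
    obtain ⟨j, hj⟩ := h (Equiv.Perm R) r hsm hpt τ₁ hτ₁
    have hσb : r σ b = b := Subtype.ext hσβ
    have hσj : (r σ ^ j) b = b := Equiv.Perm.pow_apply_eq_self_of_apply_eq_self hσb j
    have hτb : τ₁ β = β := by
      have := congrArg Subtype.val hσj
      rw [← hj, hr] at this
      exact this
    rw [(kapR_eq_zero_iff hβ0 (hfix τ₁)).2 hτb] at hκ₁
    exact zero_ne_one hκ₁
  obtain ⟨τ₀, hτ₀⟩ := exists_isTameGen p P hℓ
  have hκ0 : kapR p β τ₀ ≠ 0 := by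
    intro h0
    have := hτ₀.2 (kapR p β) (kapR_smooth β) hadd h0 τ₁ hτ₁
    rw [this] at hκ₁
    exact zero_ne_one hκ₁
  refine ⟨hσ, fun c hc hcadd hcσ τ hτ => ?_⟩
  set lam : ZMod p := c τ₀ / kapR p β τ₀ with hlamdef
  let c' : GQ → ZMod p := fun g => c g - lam * kapR p β g
  have hc' : Inh.LC1 Lall c' := by
    obtain ⟨U₁, hU₁, h₁⟩ := hc
    obtain ⟨U₂, hU₂, h₂⟩ := kapR_smooth (p := p) β
    obtain ⟨W, hW, hW₁, hW₂⟩ := Lall.directed' U₁ hU₁ U₂ hU₂
    exact ⟨W, hW, fun g s hs => by simp only [c', h₁ g s (hW₁ hs), h₂ g s (hW₂ hs)]⟩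
  have hz := hτ₀.2 c' hc' (by
    intro a ha b hb
    simp only [c', hcadd a ha b hb, hadd a ha b hb]
    ring) (by
    simp only [c', hlamdef]
    field_simp
    ring)
  have e1 := hz σ hσ
  have hlam : lam = 0 := by
    simp only [c', hcσ, zero_sub, neg_eq_zero] at e1
    exact (mul_eq_zero.1 e1).resolve_right hκσ
  have e2 := hz τ hτ
  simp only [c', hlam, zero_mul, sub_zero] at e2
  exact e2

end Fermat.Agent.S43.Loc
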