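import Fermat.Agent.S43.Loc.Conj

/-!
# S43 / Loc / Unip2 : unipotence on the inertia group at `2` is automatic

* `trace_eq_two_of_conj_sq` (pure algebra): `S, Φ ∈ GL₂(A)`, `det S = 1`, `Φ S Φ⁻¹ = S ^ 2`, `tr S + 1` a unit ⟹ `tr S = 2`.
* `trace_zpow_eq_two` : `det S = 1`, `tr S = 2` ⟹ `tr (S ^ n) = 2` for all `n : ℤ`.
* `trace_eq_two_of_two` : `R : G_ℚ →* GL₂(A)` with open kernel, `P ∣ 2`, `R(I_P)` a `p`-group, `det R = 1` on `I_P`, `tr R(τ₀) + 1` a unit
  ⟹ `tr R(σ) = 2` for all `σ ∈ I_P`.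
-/

set_option autoImplicit false

open Matrix

namespace Fermat.Agent.S43.Loc

open Fermat.Agent.PT
open Fermat.Agent.PT.Local (Qb Plc IsFrob)

variable {A : Type*} [CommRing A]

theorem sq_eq_of_det_one (S : Matrix (Fin 2) (Fin 2) A) (hdet : S.det = 1) :
    S ^ 2 = S.trace • S - 1 := by
  rw [Matrix.det_fin_two] at hdet
  ext i j
  fin_cases i <;> fin_cases j <;>
    simp [pow_two, Matrix.mul_apply, Fin.sum_univ_two, Matrix.trace_fin_two] <;>
    first
      | linear_combination (1 : A) * hdet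
      | linear_combination (-1 : A) * hdet
      | ring

theorem trace_eq_two_of_conj_sq (S Φ : GL (Fin 2) A) (hdet : (S : Matrix (Fin 2) (Fin 2) A).det = 1)
    (hconj : Φ * S * Φ⁻¹ = S ^ 2) (hu : IsUnit ((S : Matrix (Fin 2) (Fin 2) A).trace + 1)) :
    (S : Matrix (Fin 2) (Fin 2) A).trace = 2 := by
  set t := (S : Matrix (Fin 2) (Fin 2) A).trace with ht
  have h1 : ((Φ * S * Φ⁻¹ : GL (Fin 2) A) : Matrix (Fin 2) (Fin 2) A).trace = t := by
    rw [Units.val_mul, Units.val_mul, Matrix.trace_mul_comm, ← Matrix.mul_assoc, ← Units.val_mul,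
      inv_mul_cancel, Units.val_one, Matrix.one_mul]
  have h2 : ((S ^ 2 : GL (Fin 2) A) : Matrix (Fin 2) (Fin 2) A).trace = t * t - 2 := by
    rw [Units.val_pow_eq_pow_val, sq_eq_of_det_one _ hdet, Matrix.trace_sub, Matrix.trace_smul,
      Matrix.trace_one, smul_eq_mul]
    simp [ht]
  rw [hconj, h2] at h1
  have h3 : (t + 1) * (t - 2) = 0 := by linear_combination h1
  have h4 := (hu.mul_right_eq_zero).1 h3
  exact sub_eq_zero.1 h4

theorem pow_eq_of_trace_two (S : Matrix (Fin 2) (Fin 2) A) (hdet : S.det = 1) (ht : S.trace = 2)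
    (n : ℕ) : S ^ n = (n : A) • S - ((n : A) - 1) • 1 := by
  have h2 := sq_eq_of_det_one S hdet
  rw [ht] at h2
  induction n with
  | zero => simp
  | succ n ih =>
    rw [pow_succ, ih, Matrix.sub_mul, Matrix.smul_mul, Matrix.smul_mul, Matrix.one_mul, ← pow_two, h2]
    push_cast
    module

theorem trace_pow_eq_two (S : Matrix (Fin 2) (Fin 2) A) (hdet : S.det = 1) (ht : S.trace = 2)
    (n : ℕ) : (S ^ n).trace = 2 := by
  rw [pow_eq_of_trace_two S hdet ht, Matrix.trace_sub, Matrix.trace_smul, Matrix.trace_smul, ht,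
    Matrix.trace_one]
  simp
  ring

theorem trace_inv_eq (S : GL (Fin 2) A) (hdet : (S : Matrix (Fin 2) (Fin 2) A).det = 1) :
    ((S⁻¹ : GL (Fin 2) A) : Matrix (Fin 2) (Fin 2) A).trace =
      (S : Matrix (Fin 2) (Fin 2) A).trace := by
  have h2 := sq_eq_of_det_one (S : Matrix (Fin 2) (Fin 2) A) hdet
  have h3 : ((S⁻¹ : GL (Fin 2) A) : Matrix (Fin 2) (Fin 2) A) =
      (S : Matrix (Fin 2) (Fin 2) A).trace • 1 - (S : Matrix (Fin 2) (Fin 2) A) := by
    have h4 : ((S⁻¹ : GL (Fin 2) A) : Matrix (Fin 2) (Fin 2) A) * (S : Matrix (Fin 2) (Fin 2) A) = 1 := by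
      rw [← Units.val_mul, inv_mul_cancel, Units.val_one]
    have h5 := congrArg (fun M => ((S⁻¹ : GL (Fin 2) A) : Matrix (Fin 2) (Fin 2) A) * M) h2
    simp only [pow_two, ← Matrix.mul_assoc, h4, Matrix.one_mul, Matrix.mul_sub, Matrix.mul_smul,
      Matrix.mul_one] at h5
    rw [eq_sub_iff_add_eq] at h5 ⊢
    rw [add_comm]
    exact h5
  rw [h3, Matrix.trace_sub, Matrix.trace_smul, Matrix.trace_one]
  simp
  ring

theorem trace_zpow_eq_two (S : GL (Fin 2) A) (hdet : (S : Matrix (Fin 2) (Fin 2) A).det = 1)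
    (ht : (S : Matrix (Fin 2) (Fin 2) A).trace = 2) (n : ℤ) :
    ((S ^ n : GL (Fin 2) A) : Matrix (Fin 2) (Fin 2) A).trace = 2 := by
  obtain ⟨m, rfl | rfl⟩ := n.eq_nat_or_neg
  · rw [zpow_natCast, Units.val_pow_eq_pow_val]
    exact trace_pow_eq_two _ hdet ht m
  · rw [_root_.zpow_neg, zpow_natCast, trace_inv_eq, Units.val_pow_eq_pow_val]
    · exact trace_pow_eq_two _ hdet ht m
    · rw [Units.val_pow_eq_pow_val, Matrix.det_pow, hdet, one_pow]

variable {p : ℕ} [Fact p.Prime]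

/-- **UNIP2**: at a place `P ∣ 2` every lift whose inertia image is a `p`-group (`p ≠ 2`), with `det = 1` on inertia and
`tr R(τ₀) + 1` a unit (e.g. `tr ≡ 2` modulo the maximal ideal, `3` a unit) has `tr = 2` on inertia. -/
theorem trace_eq_two_of_two {P : Plc} (h2 : P.ℓ = 2) (hp2 : p ≠ 2) {τ₀ : GQ} (h : IsTameGen p P τ₀)
    (R : GQ →* GL (Fin 2) A) (hR : ∃ U ∈ Lall, U ≤ R.ker) (hp : IsPGroup p (P.ine.map R))
    (hdet : (R τ₀ : Matrix (Fin 2) (Fin 2) A).det = 1)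
    (hu : IsUnit ((R τ₀ : Matrix (Fin 2) (Fin 2) A).trace + 1)) {σ : GQ} (hσ : σ ∈ P.ine) :
    (R σ : Matrix (Fin 2) (Fin 2) A).trace = 2 := by
  obtain ⟨φ, hφ⟩ := Fermat.Agent.S56.F.LF.exists_frob_ell P
  have hℓ : P.ℓ ≠ p := by rw [h2]; exact Ne.symm hp2
  have h1 := h.conj hℓ hφ R hR hp
  rw [map_mul, map_mul, map_inv, h2] at h1
  have ht := trace_eq_two_of_conj_sq (R τ₀) (R φ) hdet h1 hu
  obtain ⟨n, hn⟩ := h.exists_zpow R hR hp hσ
  rw [hn]
  exact trace_zpow_eq_two _ hdet ht n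

end Fermat.Agent.S43.Loc
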